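import Fermat.Agent.ModPoly.Comb

/-!
# Combinatorics of the invariants of the embeddings
-/

set_option autoImplicit false
set_option linter.style.haveILetI false

namespace Fermat.Agent.Cusp

open ModularCurve Fermat.Agent.ModPoly

theorem dedekindPsi_pos {N : ℕ} (hN : 0 < N) : 0 < dedekindPsi N := by
  haveI : NeZero N := ⟨hN.ne'⟩
  rw [← Cosets.index_Gamma0]
  exact Nat.pos_of_ne_zero Subgroup.FiniteIndex.index_ne_zero

/-- the data of a finite family of divisors of `N` with the right second moments -/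
structure Fam (N : ℕ) {ι : Type*} [Fintype ι] (S : ι → ℕ) : Prop where
  dvd : ∀ i, S i ∣ N
  sum : ∀ m, m ∣ N → ∑ i, (Nat.gcd m (S i)) ^ 2 = m * Fintype.card ι
  card : Fintype.card ι = dedekindPsi N

variable {N : ℕ} (hN : 0 < N) {ι : Type*} [Fintype ι] {S : ι → ℕ} (F : Fam N S)

include hN F in
theorem Fam.card_dvd (m : ℕ) (hm : m ∣ N) :
    dedekindPsi m * (Finset.univ.filter fun i => m ∣ S i).card = dedekindPsi N := by
  classical
  set y : ℕ → ℕ := fun d => (Finset.univ.filter fun i => d ∣ S i).card with hy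
  have key : ∀ m, m ∣ N → ∑ d ∈ m.divisors, J2 d * y d =
      ∑ d ∈ m.divisors, d.totient * Fintype.card ι := by
    intro m hm
    have hm0 : m ≠ 0 := (Nat.pos_of_dvd_of_pos hm hN).ne'
    rw [← Finset.sum_mul, Nat.sum_totient, ← F.sum m hm]
    have h3 : ∀ i, (Nat.gcd m (S i)) ^ 2 = ∑ d ∈ m.divisors, if d ∣ S i then J2 d else 0 := by
      intro i
      rw [← sum_J2, ← Finset.sum_filter]
      congr 1
      ext d
      simp only [Nat.mem_divisors, Finset.mem_filter, Nat.dvd_gcd_iff]
      have : m.gcd (S i) ≠ 0 := Nat.gcd_ne_zero_left hm0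
      tauto
    simp_rw [h3]
    rw [Finset.sum_comm]
    refine Finset.sum_congr rfl fun d _ => ?_
    rw [← Finset.sum_filter, Finset.sum_const, smul_eq_mul, mul_comm]
  have key2 : ∀ m, m ∣ N → J2 m * y m = m.totient * Fintype.card ι := by
    intro m
    induction m using Nat.strong_induction_on with
    | _ m ih =>
    intro hm
    have hm0 : m ≠ 0 := (Nat.pos_of_dvd_of_pos hm hN).ne'
    have h3 := key m hm
    rw [← Nat.insert_self_properDivisors hm0, Finset.sum_insert Nat.self_notMem_properDivisors,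
      Finset.sum_insert Nat.self_notMem_properDivisors] at h3
    have h4 : ∑ d ∈ m.properDivisors, J2 d * y d =
        ∑ d ∈ m.properDivisors, d.totient * Fintype.card ι := by
      refine Finset.sum_congr rfl fun d hd => ?_
      rw [Nat.mem_properDivisors] at hd
      exact ih d hd.2 (hd.1.trans hm)
    omega
  have h6 := key2 m hm
  rw [J2_apply, F.card, mul_assoc] at h6
  exact Nat.eq_of_mul_eq_mul_left (Nat.totient_pos.mpr (Nat.pos_of_dvd_of_pos hm hN)) h6

include hN in
theorem Fam.card_dvd_eq {ι' : Type*} [Fintype ι'] {S' : ι' → ℕ} (F : Fam N S) (F' : Fam N S')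
    (m : ℕ) (hm : m ∣ N) : (Finset.univ.filter fun i => m ∣ S i).card =
    (Finset.univ.filter fun i => m ∣ S' i).card := by
  have h1 := F.card_dvd hN m hm
  have h2 := F'.card_dvd hN m hm
  rw [← h2] at h1
  exact Nat.eq_of_mul_eq_mul_left (dedekindPsi_pos (Nat.pos_of_dvd_of_pos hm hN)) h1

include hN in
theorem Fam.split (F : Fam N S) (m : ℕ) :
    (Finset.univ.filter fun i => m ∣ S i).card =
      ∑ d ∈ N.divisors.filter (fun d => m ∣ d), (Finset.univ.filter fun i => S i = d).card := by
  classical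
  have := Finset.card_eq_sum_card_fiberwise (f := S) (s := Finset.univ.filter fun i => m ∣ S i)
    (t := N.divisors.filter (fun d => m ∣ d)) (by
      intro i hi
      simp only [Finset.coe_filter, Finset.mem_univ, true_and, Set.mem_ofPred_eq] at hi
      simp only [Finset.coe_filter, Nat.mem_divisors, Set.mem_ofPred_eq]
      exact ⟨⟨F.dvd i, hN.ne'⟩, hi⟩)
  rw [this]
  refine Finset.sum_congr rfl fun d hd => ?_
  rw [Finset.mem_filter] at hd
  congr 1
  ext i
  simp only [Finset.mem_filter, Finset.mem_univ, true_and]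
  constructor
  · exact fun h => h.2
  · exact fun h => ⟨h ▸ hd.2, h⟩

include hN in
theorem Fam.card_eq_eq {ι' : Type*} [Fintype ι'] {S' : ι' → ℕ} (F : Fam N S) (F' : Fam N S')
    (m : ℕ) (hm : m ∣ N) : (Finset.univ.filter fun i => S i = m).card =
    (Finset.univ.filter fun i => S' i = m).card := by
  classical
  -- induction on `N - m`
  induction hr : N - m using Nat.strong_induction_on generalizing m with
  | _ r ih =>
  have hm0 : 0 < m := Nat.pos_of_dvd_of_pos hm hN
  have h1 := F.card_dvd_eq hN F' m hm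
  rw [F.split hN, F'.split hN] at h1
  have hmem : m ∈ N.divisors.filter (fun d => m ∣ d) := by
    rw [Finset.mem_filter, Nat.mem_divisors]
    exact ⟨⟨hm, hN.ne'⟩, dvd_rfl⟩
  rw [← Finset.add_sum_erase _ _ hmem, ← Finset.add_sum_erase _ _ hmem] at h1
  have h2 : ∑ d ∈ (N.divisors.filter (fun d => m ∣ d)).erase m,
      (Finset.univ.filter fun i => S i = d).card = ∑ d ∈ (N.divisors.filter (fun d => m ∣ d)).erase m,
      (Finset.univ.filter fun i => S' i = d).card := by
    refine Finset.sum_congr rfl fun d hd => ?_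
    rw [Finset.mem_erase, Finset.mem_filter, Nat.mem_divisors] at hd
    obtain ⟨h3, ⟨h4, -⟩, h5⟩ := hd
    have h6 : d ≤ N := Nat.le_of_dvd hN h4
    have h7 : m ≤ d := Nat.le_of_dvd (Nat.pos_of_dvd_of_pos h4 hN) h5
    exact ih (N - d) (by omega) d h4 rfl
  omega

include hN in
theorem Fam.sum_fib (F : Fam N S) (f : ℕ → ℤ) :
    ∑ i, f (S i) = ∑ d ∈ N.divisors, ((Finset.univ.filter fun i => S i = d).card : ℤ) * f d := by
  classical
  rw [← Finset.sum_fiberwise_of_maps_to (s := Finset.univ) (t := N.divisors) (g := S)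
    (fun i _ => by rw [Nat.mem_divisors]; exact ⟨F.dvd i, hN.ne'⟩)]
  refine Finset.sum_congr rfl fun d _ => ?_
  rw [Finset.sum_congr rfl (g := fun _ => f d)]
  · simp
  · intro i hi
    rw [Finset.mem_filter] at hi
    rw [hi.2]

include hN in
/-- sums over the family only depend on `N` -/
theorem Fam.sum_eq {ι' : Type*} [Fintype ι'] {S' : ι' → ℕ} (F : Fam N S) (F' : Fam N S')
    (f : ℕ → ℤ) : ∑ i, f (S i) = ∑ i, f (S' i) := by
  classical
  rw [F.sum_fib hN, F'.sum_fib hN]
  refine Finset.sum_congr rfl fun d hd => ?_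
  rw [Nat.mem_divisors] at hd
  rw [F.card_eq_eq hN F' d hd.1]

open ArithmeticFunction in
include hN in
/-- there is an element with trivial invariant -/
theorem Fam.exists_one (F : Fam N S) : ∃ i, S i = 1 := by
  classical
  -- the radical
  set R := UniqueFactorizationMonoid.radical N with hR
  have hRN : R ∣ N := UniqueFactorizationMonoid.radical_dvd_self
  have hR0 : 0 < R := Nat.pos_of_dvd_of_pos hRN hN
  have hRsq : Squarefree R := UniqueFactorizationMonoid.squarefree_radical
  have hone : ∀ n : ℕ, 0 < n → ∑ d ∈ n.divisors, (moebius d : ℚ) = if n = 1 then 1 else 0 := by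
    intro n hn
    have h1 : ((moebius : ArithmeticFunction ℤ) * (zeta : ArithmeticFunction ℤ)) n =
      (1 : ArithmeticFunction ℤ) n := by rw [moebius_mul_coe_zeta]
    rw [coe_mul_zeta_apply, ArithmeticFunction.one_apply] at h1
    have h2 := congrArg (fun x : ℤ => (x : ℚ)) h1
    push_cast at h2
    exact h2
  -- the multiplicative function `1/ψ`
  let f : ArithmeticFunction ℚ := ⟨fun n => if n = 0 then 0 else ((dedekindPsi n : ℚ))⁻¹, by simp⟩
  have hfapp : ∀ n, n ≠ 0 → f n = ((dedekindPsi n : ℚ))⁻¹ := fun n hn => if_neg hn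
  have hf : f.IsMultiplicative := by
    rw [ArithmeticFunction.IsMultiplicative.iff_ne_zero]
    refine ⟨by rw [hfapp 1 one_ne_zero]; simp, fun {m n} hm hn h => ?_⟩
    rw [hfapp _ (mul_ne_zero hm hn), hfapp _ hm, hfapp _ hn, dedekindPsi_mul_coprime hm n hn h]
    push_cast
    rw [mul_inv]
  have h1 := hf.prodPrimeFactors_one_sub_of_squarefree f hRsq
  have hpos : 0 < ∏ p ∈ R.primeFactors, (1 - f p) := by
    apply Finset.prod_pos
    intro p hp
    have hpp := Nat.prime_of_mem_primeFactors hp
    rw [hfapp p hpp.ne_zero]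
    have h2 := dedekindPsi_prime_pow hpp 0
    rw [zero_add, pow_one, pow_zero, one_mul] at h2
    rw [h2]
    have : (1 : ℚ) < ((p + 1 : ℕ) : ℚ) := by
      have := hpp.pos
      exact_mod_cast Nat.lt_succ_of_le this
    have h3 : ((p + 1 : ℕ) : ℚ)⁻¹ < 1 := inv_lt_one_of_one_lt₀ this
    linarith
  rw [h1] at hpos
  have hψ : (0 : ℚ) < dedekindPsi N := by exact_mod_cast dedekindPsi_pos hN
  have h2 : ((Finset.univ.filter fun i => Nat.gcd R (S i) = 1).card : ℚ) =
      dedekindPsi N * ∑ d ∈ R.divisors, (moebius d : ℚ) * f d := by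
    have h3 : ((Finset.univ.filter fun i => Nat.gcd R (S i) = 1).card : ℚ) =
        ∑ i, ∑ d ∈ R.divisors, if d ∣ S i then (moebius d : ℚ) else 0 := by
      rw [Finset.card_eq_sum_ones, Finset.sum_filter]
      push_cast
      refine Finset.sum_congr rfl fun i _ => ?_
      rw [← hone _ (Nat.gcd_pos_of_pos_left _ hR0), ← Finset.sum_filter]
      congr 1
      ext d
      simp only [Nat.mem_divisors, Finset.mem_filter, Nat.dvd_gcd_iff]
      have : R.gcd (S i) ≠ 0 := Nat.gcd_ne_zero_left hR0.ne'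
      have := hR0.ne'
      tauto
    rw [h3, Finset.sum_comm, Finset.mul_sum]
    refine Finset.sum_congr rfl fun d hd => ?_
    rw [Nat.mem_divisors] at hd
    have hd0 : d ≠ 0 := by
      rintro rfl
      exact hd.2 (Nat.eq_zero_of_zero_dvd hd.1)
    rw [← Finset.sum_filter, Finset.sum_const, nsmul_eq_mul, hfapp d hd0]
    have h4 := F.card_dvd hN d (hd.1.trans hRN)
    have h5 : (dedekindPsi d : ℚ) ≠ 0 := by
      exact_mod_cast (dedekindPsi_pos (Nat.pos_of_ne_zero hd0)).ne'
    rw [← h4]
    push_cast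
    field_simp
  have h3 : (0 : ℚ) < ((Finset.univ.filter fun i => Nat.gcd R (S i) = 1).card : ℚ) := by
    rw [h2]
    exact mul_pos hψ hpos
  have h4 : 0 < (Finset.univ.filter fun i => Nat.gcd R (S i) = 1).card := by exact_mod_cast h3
  obtain ⟨i, hi⟩ := Finset.card_pos.1 h4
  refine ⟨i, ?_⟩
  rw [Finset.mem_filter] at hi
  by_contra hne
  obtain ⟨p, hp, hpd⟩ := Nat.exists_prime_and_dvd hne
  have h5 : p ∣ R := (UniqueFactorizationMonoid.dvd_radical_iff_of_irreducible hp hN.ne').2
    (hpd.trans (F.dvd i))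
  have h6 := Nat.dvd_gcd h5 hpd
  rw [hi.2] at h6
  exact hp.one_lt.ne' (Nat.dvd_one.1 h6)

end Fermat.Agent.Cusp
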