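import Fermat.Agent.Cusp.Embed

/-!
# Places over a point and orbits of embeddings, in any characteristic
-/

set_option autoImplicit false
set_option linter.style.haveILetI false
set_option linter.unusedSectionVars false
set_option linter.unusedVariables false

namespace Fermat.Agent.Cusp

open AlgebraicCurve IntermediateField Fermat.Agent.Curve

variable {K F Ω : Type*} [Field K] [IsAlgClosed K] [Field F] [Algebra K F] [Field Ω]

theorem zeros_sum' (t : F) (ht : Transcendental K t) [FiniteDimensional K⟮t⟯ F] :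
    ∃ hfin : {v : Place K F | 0 < v.ord t}.Finite,
      ∑ v ∈ hfin.toFinset, v.ord t = Module.finrank K⟮t⟯ F := by
  haveI : RR.FunField K F := RR.FunField.of ht
  have ht0 : t ≠ 0 := by
    rintro rfl
    exact ht isAlgebraic_zero
  refine ⟨RR.finite_pos ht0, ?_⟩
  rw [← RR.degree_zeroDiv ht, RR.degree_eq]
  symm
  refine Finset.sum_congr ?_ ?_
  · ext v
    rw [Finsupp.mem_support_iff, Set.Finite.mem_toFinset, RR.zeroDiv_apply, Set.mem_ofPred_eq]
    constructor
    · intro h
      by_contra hc
      exact h (max_eq_right (not_lt.1 hc))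
    · intro h
      rw [max_eq_left h.le]
      exact h.ne'
  · intro v hv
    rw [Set.Finite.mem_toFinset, Set.mem_ofPred_eq] at hv
    rw [RR.zeroDiv_apply]
    exact max_eq_left hv.le

/-- **Theorem B**: the places over `t = 0` correspond to the orbits of `s` on the embeddings. -/
theorem orbits (t : F) (ht : Transcendental K t) [FiniteDimensional K⟮t⟯ F]
    [Algebra.IsSeparable K⟮t⟯ F]
    {X : Type*} [Fintype X] (φ : X → F →+* Ω) (hφinj : Function.Injective φ)
    (hφ : ∀ x y, ∀ z ∈ K⟮t⟯, φ x z = φ y z)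
    (hcard : Nat.card X = Module.finrank K⟮t⟯ F)
    (w : Ω → ℤ) (hwmul : ∀ f g : Ω, f ≠ 0 → g ≠ 0 → w (f * g) = w f + w g)
    (hwadd : ∀ f g : Ω, f ≠ 0 → g ≠ 0 → f + g ≠ 0 → min (w f) (w g) ≤ w (f + g))
    (hwK : ∀ x, ∀ a : K, a ≠ 0 → w (φ x (algebraMap K F a)) = 0)
    (e0 : ℤ) (he0 : 0 < e0) (hwt : ∀ x, w (φ x t) = e0)
    (σ : Equiv.Perm X) (s : Ω →+* Ω) (hs : ∀ x, s.comp (φ x) = φ (σ x))
    (hws : ∀ f : Ω, f ≠ 0 → w (s f) = w f)
    (hdiv : ∀ (m : ℕ) (f : Ω), f ≠ 0 → s^[m] f = f → e0 ∣ m * w f) :
    ∃ (pl : X → Place K F) (m : X → ℤ), (∀ x, 0 < m x) ∧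
      (∀ x, ∀ f : F, f ≠ 0 → w (φ x f) = m x * (pl x).ord f) ∧
      (∀ x, 0 < (pl x).ord t) ∧
      (∀ v : Place K F, 0 < v.ord t → ∃ x, pl x = v) ∧
      (∀ x y, pl x = pl y ↔ ∃ i : ℕ, y = σ^[i] x) ∧
      (∀ x, ((Function.minimalPeriod σ x : ℕ) : ℤ) = (pl x).ord t) ∧
      {v : Place K F | 0 < v.ord t}.Finite ∧
      ∑ x, m x = e0 * Set.ncard {v : Place K F | 0 < v.ord t} := by
  classical
  obtain ⟨x0⟩ : Nonempty X := by
    rw [← not_isEmpty_iff]
    intro hempty
    rw [Nat.card_of_isEmpty] at hcard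
    exact (Module.finrank_pos (R := K⟮t⟯) (M := F)).ne hcard
  have ht0 : t ≠ 0 := by
    rintro rfl
    exact ht isAlgebraic_zero
  have hpl : ∀ x, ∃ u : Place K F, ∃ m : ℤ, 0 < m ∧ ∀ f : F, f ≠ 0 → w (φ x f) = m * u.ord f :=
    fun x => exists_place_of_embedding' (φ x) w hwmul hwadd (hwK x)
      ⟨t, ht0, by rw [hwt x]; exact he0.ne'⟩
  choose pl m hm0 hm using hpl
  have hmt : ∀ x, m x * (pl x).ord t = e0 := fun x => by rw [← hwt x, hm x t ht0]
  have hplpos : ∀ x, 0 < (pl x).ord t := by
    intro x
    have h1 := hmt x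
    have h3 := hm0 x
    by_contra hcon
    push Not at hcon
    nlinarith
  have hplσ : ∀ x, pl (σ x) = pl x := by
    intro x
    apply place_eq_of_le
    intro f hf
    rcases eq_or_ne f 0 with rfl | hf0
    · exact zero_mem _
    apply mem_of_ord_nonneg
    have h1 := ord_nonneg_of_mem _ hf
    have h2 : w (φ (σ x) f) = w (φ x f) := by
      rw [← hs x]
      exact hws _ (by rwa [ne_eq, map_eq_zero])
    rw [hm _ f hf0, hm _ f hf0] at h2
    have h3 := hm0 x
    have h4 := hm0 (σ x)
    by_contra hcon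
    push Not at hcon
    have h5 : m x * (pl x).ord f < 0 := by nlinarith
    have h6 : 0 ≤ m (σ x) * (pl (σ x)).ord f := by positivity
    omega
  have hplpow : ∀ (n : ℕ) x, pl (σ^[n] x) = pl x := by
    intro n
    induction n with
    | zero => intro x; rfl
    | succ n ih => intro x; rw [Function.iterate_succ_apply', hplσ, ih]
  have hsurj : ∀ v : Place K F, 0 < v.ord t → ∃ x, pl x = v := by
    intro v hv
    obtain ⟨x, m', hm'0, hm'⟩ := exists_embedding_of_place t ht φ hφinj hφ hcard w hwmul hwadd hwK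
      (fun x => by rw [hwt x]; exact he0) v hv
    refine ⟨x, ?_⟩
    apply place_eq_of_le
    intro f hf
    rcases eq_or_ne f 0 with rfl | hf0
    · exact zero_mem _
    apply mem_of_ord_nonneg
    have h1 := ord_nonneg_of_mem _ hf
    have h2 := hm x f hf0
    rw [hm' f hf0] at h2
    have h3 := hm0 x
    by_contra hcon
    push Not at hcon
    have h5 : m' * v.ord f < 0 := by nlinarith
    have h6 : 0 ≤ m x * (pl x).ord f := by positivity
    omega
  -- the minimal period is at least the ramification index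
  have hper : ∀ x, (pl x).ord t ≤ (Function.minimalPeriod σ x : ℕ) := by
    intro x
    set M := Function.minimalPeriod σ x with hM
    have hMpos : 0 < M := Function.minimalPeriod_pos_of_mem_periodicPts
      (σ.injective.mem_periodicPts x)
    have hMx : σ^[M] x = x := Function.iterate_minimalPeriod
    have hsM : ∀ (n : ℕ) (y : X), s^[n] ∘ (φ y) = φ (σ^[n] y) := by
      intro n
      induction n with
      | zero => intro y; rfl
      | succ n ih =>
        intro y
        rw [Function.iterate_succ, Function.iterate_succ]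
        funext f
        simp only [Function.comp_apply]
        have h1 := ih (σ y)
        have h2 : s (φ y f) = φ (σ y) f := by rw [← hs y]; rfl
        rw [h2]
        exact congrFun h1 f
    obtain ⟨f, hf0, hf1⟩ := exists_ord_eq (pl x) 1
    have hdf := hdiv M (φ x f) (by rwa [ne_eq, map_eq_zero]) (by
      have := congrFun (hsM M x) f
      rw [hMx] at this
      exact this)
    rw [hm x f hf0, hf1, mul_one, ← hmt x, mul_comm (M : ℤ)] at hdf
    have h8 : (pl x).ord t ∣ (M : ℤ) := (mul_dvd_mul_iff_left (hm0 x).ne').1 hdf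
    exact Int.le_of_dvd (by exact_mod_cast hMpos) h8
  obtain ⟨hfin, hsum⟩ := zeros_sum' t ht
  -- fibres
  let fib : Place K F → Finset X := fun v => Finset.univ.filter fun x => pl x = v
  have hmemfib : ∀ v x, x ∈ fib v ↔ pl x = v := fun v x => by simp [fib]
  let orb : X → Finset X := fun x => (Finset.range (Function.minimalPeriod σ x)).image fun i => σ^[i] x
  have horbcard : ∀ x, (orb x).card = Function.minimalPeriod σ x := by
    intro x
    rw [Finset.card_image_of_injOn, Finset.card_range]
    intro i hi j hj hij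
    exact Function.iterate_injOn_Iio_minimalPeriod (f := σ) (x := x)
      (by simpa using hi) (by simpa using hj) hij
  have horbsub : ∀ x, orb x ⊆ fib (pl x) := by
    intro x y hy
    simp only [orb, Finset.mem_image, Finset.mem_range] at hy
    obtain ⟨i, -, rfl⟩ := hy
    rw [hmemfib, hplpow]
  have hle : ∀ v ∈ hfin.toFinset, v.ord t ≤ ((fib v).card : ℤ) := by
    intro v hv
    rw [Set.Finite.mem_toFinset] at hv
    obtain ⟨x, rfl⟩ := hsurj v hv
    have h1 := Finset.card_le_card (horbsub x)
    rw [horbcard] at h1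
    exact (hper x).trans (by exact_mod_cast h1)
  have hcardsum : ∑ v ∈ hfin.toFinset, ((fib v).card : ℤ) = Nat.card X := by
    have := Finset.card_eq_sum_card_fiberwise (f := pl) (s := Finset.univ) (t := hfin.toFinset)
      (by intro x _; rw [Finset.mem_coe, Set.Finite.mem_toFinset]; exact hplpos x)
    rw [Nat.card_eq_fintype_card, ← Finset.card_univ, this]
    push_cast
    rfl
  have heq : ∀ v ∈ hfin.toFinset, v.ord t = ((fib v).card : ℤ) := by
    rw [← Finset.sum_eq_sum_iff_of_le hle, hcardsum, hsum, hcard]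
  have hpermem : ∀ x, pl x ∈ hfin.toFinset := fun x => by
    rw [Set.Finite.mem_toFinset]; exact hplpos x
  have hper2 : ∀ x, ((Function.minimalPeriod σ x : ℕ) : ℤ) = (pl x).ord t := by
    intro x
    apply le_antisymm _ (hper x)
    have h1 := Finset.card_le_card (horbsub x)
    rw [horbcard] at h1
    rw [heq _ (hpermem x)]
    exact_mod_cast h1
  have horb2 : ∀ x, orb x = fib (pl x) := by
    intro x
    apply Finset.eq_of_subset_of_card_le (horbsub x)
    have h1 := heq _ (hpermem x)
    rw [← hper2] at h1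
    rw [horbcard]
    exact_mod_cast h1.ge
  refine ⟨pl, m, hm0, hm, hplpos, hsurj, ?_, hper2, hfin, ?_⟩
  · intro x y
    constructor
    · intro hxy
      have h1 : y ∈ fib (pl x) := by rw [hmemfib]; exact hxy.symm
      rw [← horb2] at h1
      simp only [orb, Finset.mem_image, Finset.mem_range] at h1
      obtain ⟨i, -, hi⟩ := h1
      exact ⟨i, hi.symm⟩
    · rintro ⟨i, rfl⟩
      exact (hplpow i x).symm
  · rw [← Finset.sum_fiberwise_of_maps_to (s := Finset.univ) (t := hfin.toFinset) (g := pl)
      (fun x _ => hpermem x)]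
    have h1 : ∀ v ∈ hfin.toFinset, ∑ x ∈ Finset.univ.filter (fun x => pl x = v), m x = e0 := by
      intro v hv
      have h2 : ∀ x ∈ fib v, v.ord t * m x = e0 := by
        intro x hx
        rw [hmemfib] at hx
        rw [← hx, mul_comm]
        exact hmt x
      have hv' : 0 < v.ord t := by
        rw [Set.Finite.mem_toFinset] at hv
        exact hv
      apply mul_left_cancel₀ hv'.ne'
      change v.ord t * ∑ x ∈ fib v, m x = _
      rw [Finset.mul_sum, Finset.sum_congr rfl h2, Finset.sum_const, nsmul_eq_mul, heq v hv]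
    rw [Finset.sum_congr rfl h1, Finset.sum_const, nsmul_eq_mul, mul_comm,
      Set.ncard_eq_toFinset_card _ hfin]

end Fermat.Agent.Cusp
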