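import Fermat.Agent.Cusp.Emb
import Fermat.Agent.Cusp.Orbit
import Fermat.Agent.Cusp.Comb

/-!
# The places of the modular function field at the poles of `j`, in any characteristic
-/

set_option autoImplicit false
set_option linter.style.haveILetI false
set_option linter.unusedSectionVars false

noncomputable section

namespace Fermat.Agent.Cusp

open ModularCurve Polynomial IntermediateField Fermat.Agent.ModPoly AlgebraicCurve

section Rot

variable {k : Type*} [Field k] {N : ℕ} [NeZero N]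

theorem SbA_one_coeff (z : kˣ) (f : LaurentSeries k) (n : ℤ) :
    (SbA z 1 f).coeff n = ((z ^ n : kˣ) : k) * f.coeff n := by
  have h := Sb_coeff_mul z 1 f n
  rw [PNat.one_coe, Nat.cast_one, one_mul] at h
  exact h

theorem SbA_one_iterate_coeff (z : kˣ) (m : ℕ) (f : LaurentSeries k) (n : ℤ) :
    ((SbA z 1)^[m] f).coeff n = (z : k) ^ (m * n : ℤ) * f.coeff n := by
  induction m with
  | zero => simp
  | succ m ih =>
    rw [Function.iterate_succ_apply', SbA_one_coeff, ih, ← mul_assoc]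
    congr 1
    rw [Units.val_zpow_eq_zpow_val, ← zpow_add₀ z.ne_zero]
    congr 1
    push_cast
    ring

theorem order_SbA_one (z : kˣ) (f : LaurentSeries k) : (SbA z 1 f).order = f.order := by
  rw [SbA_apply, order_Sb]
  simp

theorem coeff_order_ne' {f : LaurentSeries k} (hf : f ≠ 0) : f.coeff f.order ≠ 0 :=
  HahnSeries.coeff_orderTop_ne (HahnSeries.order_eq_orderTop_of_ne_zero hf).symm

theorem SbA_one_Jc (z c : kˣ) (e : ℕ+) : SbA z 1 (Jc c e) = Jc (z ^ (e : ℕ) * c) e := by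
  rw [SbA_apply, Sb_Jc, one_mul]

theorem SbA_one_comp (z z' : kˣ) (f : LaurentSeries k) :
    SbA z 1 (SbA z' 1 f) = SbA (z * z') 1 f := by
  ext n
  rw [SbA_one_coeff, SbA_one_coeff, SbA_one_coeff, ← mul_assoc, mul_zpow]
  push_cast
  rfl

theorem SbA_one_one (f : LaurentSeries k) : SbA 1 1 f = f := by
  ext n
  rw [SbA_one_coeff]
  simp

/-- rotation of an embedding -/
def rot' (z : kˣ) (hz : z ^ N = 1) (τ : Emb k N) : Emb k N :=
  ⟨(SbA z 1).comp τ.1, by
    rw [AlgHom.comp_apply, τ.2, SbA_one_Jc, coe_pn, hz, one_mul]⟩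

theorem rot'_apply (z : kˣ) (hz : z ^ N = 1) (τ : Emb k N) (x : FF k N) :
    (rot' z hz τ).1 x = SbA z 1 (τ.1 x) := rfl

/-- rotation as a permutation -/
def rot (z : kˣ) (hz : z ^ N = 1) : Equiv.Perm (Emb k N) where
  toFun := rot' z hz
  invFun := rot' z⁻¹ (by rw [inv_pow, hz, inv_one])
  left_inv τ := by
    apply Subtype.ext
    apply AlgHom.ext
    intro x
    rw [rot'_apply, rot'_apply, SbA_one_comp, inv_mul_cancel, SbA_one_one]
  right_inv τ := by
    apply Subtype.ext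
    apply AlgHom.ext
    intro x
    rw [rot'_apply, rot'_apply, SbA_one_comp, mul_inv_cancel, SbA_one_one]

theorem rot_apply (z : kˣ) (hz : z ^ N = 1) (τ : Emb k N) (x : FF k N) :
    (rot z hz τ).1 x = SbA z 1 (τ.1 x) := rfl

theorem rot_iterate_apply (z : kˣ) (hz : z ^ N = 1) (τ : Emb k N) (x : FF k N) (n : ℕ) :
    ((rot z hz)^[n] τ).1 x = SbA (z ^ n) 1 (τ.1 x) := by
  induction n with
  | zero => rw [Function.iterate_zero, id, pow_zero, SbA_one_one]
  | succ n ih =>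
    rw [Function.iterate_succ_apply', rot_apply, ih, SbA_one_comp, pow_succ']

theorem gcd_mul_dvd {N m : ℕ} (s : ℕ) (hm : m ∣ N) :
    Nat.gcd N (s ^ 2) * m ∣ N * Nat.gcd m s ^ 2 := by
  have h1 : Nat.gcd m s ^ 2 = Nat.gcd (m ^ 2) (s ^ 2) := Nat.pow_gcd_pow.symm
  rw [h1, ← Nat.gcd_mul_left]
  apply Nat.dvd_gcd
  · exact mul_dvd_mul (Nat.gcd_dvd_left _ _) (dvd_pow_self m two_ne_zero)
  · rw [mul_comm]
    exact mul_dvd_mul hm (Nat.gcd_dvd_right _ _)

end Rot

section Main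

variable {k : Type*} [Field k] [IsAlgClosed k] {N : ℕ} [NeZero N] (hN : (N : k) ≠ 0)

theorem exists_zeta : (N : k) ≠ 0 → ∃ z : kˣ, IsPrimitiveRoot z N := by
  intro hN
  haveI : NeZero (N : k) := ⟨hN⟩
  obtain ⟨z, hz⟩ := (inferInstance : HasEnoughRootsOfUnity k N).prim
  have hz0 : z ≠ 0 := hz.ne_zero (NeZero.ne N)
  refine ⟨Units.mk0 z hz0, ?_⟩
  rw [← IsPrimitiveRoot.coe_units_iff]
  exact hz

omit [NeZero N] in
theorem transcendental_jF : Transcendental k (jF' k N) := by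
  rw [transcendental_iff_injective]
  exact aeval_jF_injective

omit [NeZero N] in
theorem jF_ne_zero : jF' k N ≠ 0 := by
  intro h
  apply transcendental_jF (k := k) (N := N)
  rw [h]
  exact isAlgebraic_zero

omit [NeZero N] [IsAlgClosed k] in
theorem adjoin_inv' {F : Type*} [Field F] [Algebra k F] (t : F) : k⟮t⁻¹⟯ = k⟮t⟯ := by
  apply le_antisymm
  · rw [adjoin_simple_le_iff]
    exact inv_mem (mem_adjoin_simple_self k t)
  · rw [adjoin_simple_le_iff]
    have := inv_mem (mem_adjoin_simple_self k t⁻¹)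
    rwa [inv_inv] at this

/-- embedding data -/
theorem Emb.map_jm (hN : (N : k) ≠ 0) (τ : Emb k N) (m : ℕ+) (hm : (m : ℕ) ∣ N) :
    ∃ (c : kˣ) (e : ℕ+), τ.1 (jm k m hm) = Jc c e ∧ (e : ℕ) * m = N * Nat.gcd m τ.s ^ 2 := by
  obtain ⟨c, e, κ, h⟩ := τ.exists_data' hN
  exact ⟨c m, e m, (h m hm).map_j, (h m hm).mul_eq⟩

theorem Emb.order_jm (hN : (N : k) ≠ 0) (τ : Emb k N) (m : ℕ+) (hm : (m : ℕ) ∣ N) :
    (τ.1 (jm k m hm)).order * m = -(N * Nat.gcd m τ.s ^ 2 : ℕ) := by
  obtain ⟨c, e, h1, h2⟩ := τ.map_jm hN m hm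
  rw [h1, order_Jc, ← h2]
  push_cast
  ring

/-- the rotation group and the common divisor of the exponents -/
theorem rot_iterate_eq (hN : (N : k) ≠ 0) {z : kˣ} (hz : IsPrimitiveRoot z N) (τ : Emb k N) :
    (rot z hz.pow_eq_one)^[N / Nat.gcd N (τ.s ^ 2)] τ = τ := by
  apply Emb.ext'
  intro m hm
  obtain ⟨c, e, h1, h2⟩ := τ.map_jm hN m hm
  rw [rot_iterate_apply, h1, SbA_one_Jc, ← pow_mul]
  have h3 : Nat.gcd N (τ.s ^ 2) * m ∣ e * m := by
    rw [h2]
    exact gcd_mul_dvd τ.s hm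
  have h4 : Nat.gcd N (τ.s ^ 2) ∣ e := Nat.dvd_of_mul_dvd_mul_right m.pos h3
  have h5 : N ∣ N / Nat.gcd N (τ.s ^ 2) * e := by
    obtain ⟨a, ha⟩ := h4
    rw [ha, ← mul_assoc, Nat.div_mul_cancel (Nat.gcd_dvd_left _ _)]
    exact dvd_mul_right _ _
  rw [hz.pow_eq_one_iff_dvd _ |>.2 h5, one_mul]

set_option maxHeartbeats 1000000 in
theorem exists_places (hN : (N : k) ≠ 0) [Fintype (Emb k N)] :
    ∃ pl : Emb k N → Place k (FF k N),
      (∀ τ : Emb k N, ∀ f : FF k N, f ≠ 0 →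
        (τ.1 f).order = (Nat.gcd N (τ.s ^ 2) : ℤ) * (pl τ).ord f) ∧
      (∀ τ, (pl τ).ord (jF' k N) < 0) ∧
      (∀ v : Place k (FF k N), v.ord (jF' k N) < 0 → ∃ τ, pl τ = v) ∧
      {v : Place k (FF k N) | v.ord (jF' k N) < 0}.Finite ∧
      ∑ τ : Emb k N, (Nat.gcd N (τ.s ^ 2) : ℤ) =
        N * Set.ncard {v : Place k (FF k N) | v.ord (jF' k N) < 0} := by
  obtain ⟨z, hz⟩ := exists_zeta (k := k) (N := N) hN
  have hj0 : jF' k N ≠ 0 := jF_ne_zero
  haveI h1 : FiniteDimensional k⟮(jF' k N)⁻¹⟯ (FF k N) := by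
    rw [adjoin_inv']; exact finiteDimensional_E hN
  haveI h2 : Algebra.IsSeparable k⟮(jF' k N)⁻¹⟯ (FF k N) := by
    rw [adjoin_inv']; exact isSeparable_E hN
  have ht : Transcendental k (jF' k N)⁻¹ := fun h => transcendental_jF (k := k) (N := N) (by
    have := h.inv
    rwa [inv_inv] at this)
  obtain ⟨pl, m, hm0, hm, hpos, hsurj, hcyc, hper, hfin, hsum⟩ := orbits (jF' k N)⁻¹ ht
    (X := Emb k N) (Ω := LaurentSeries k) (fun τ => τ.1.toRingHom)
    (by
      intro τ τ' h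
      apply Subtype.ext
      apply AlgHom.ext
      intro x
      exact congrArg (fun f : FF k N →+* LaurentSeries k => f x) h)
    (by
      intro τ τ' x hx
      rw [adjoin_inv'] at hx
      exact agree_E τ.1 τ'.1 (τ.2.trans τ'.2.symm) x hx)
    (by
      rw [card_Emb hN, ← finrank_E hN]
      have : ∀ (A B : IntermediateField k (FF k N)), A = B →
        Module.finrank A (FF k N) = Module.finrank B (FF k N) := by
        rintro A B rfl; rfl
      exact this _ _ (adjoin_inv' _).symm)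
    HahnSeries.order (fun f g hf hg => HahnSeries.order_mul hf hg)
    (fun f g hf hg hfg => HahnSeries.min_order_le_order_add hfg)
    (by
      intro τ a ha
      change (τ.1 (algebraMap k (FF k N) a)).order = 0
      rw [AlgHom.commutes, algebraMap_eq_C, HahnSeries.order_C])
    N (by exact_mod_cast NeZero.pos N)
    (by
      intro τ
      change (τ.1 (jF' k N)⁻¹).order = N
      rw [map_inv₀]
      have h3 : τ.1 (jF' k N) = Jc 1 (pn N) := τ.2
      rw [h3]
      have h4 : (Jc 1 (pn N) : LaurentSeries k) ≠ 0 := by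
        rw [← h3]
        intro h0
        rw [map_eq_zero] at h0
        exact hj0 h0
      have h5 := HahnSeries.order_mul h4 (inv_ne_zero h4)
      rw [mul_inv_cancel₀ h4, HahnSeries.order_one, order_Jc, coe_pn] at h5
      linarith)
    (rot z hz.pow_eq_one) (SbA z 1).toRingHom
    (by
      intro τ
      rfl)
    (fun f _ => order_SbA_one z f)
    (by
      intro n f hf h
      have h3 : ((SbA z 1)^[n] f).coeff f.order = f.coeff f.order := by
        have h' : (SbA z 1)^[n] f = f := h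
        rw [h']
      rw [SbA_one_iterate_coeff] at h3
      have h4 := coeff_order_ne' hf
      have h5 : (z : k) ^ (n * f.order : ℤ) = 1 := by
        have : ((z : k) ^ (n * f.order : ℤ) - 1) * f.coeff f.order = 0 := by
          rw [sub_mul, h3, one_mul, sub_self]
        rcases mul_eq_zero.1 this with h6 | h6
        · exact sub_eq_zero.1 h6
        · exact absurd h6 h4
      rw [← Units.val_zpow_eq_zpow_val, Units.val_eq_one] at h5
      exact (hz.zpow_eq_one_iff_dvd _).1 h5)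
  have hset : {v : Place k (FF k N) | 0 < v.ord (jF' k N)⁻¹} = {v | v.ord (jF' k N) < 0} := by
    ext v
    simp only [Set.mem_ofPred_eq]
    rw [v.ord_inv]
    omega
  -- the multiplicities
  have hmN : ∀ τ, m τ * (pl τ).ord (jF' k N)⁻¹ = N := by
    intro τ
    rw [← hm τ _ (inv_ne_zero hj0)]
    change (τ.1 (jF' k N)⁻¹).order = N
    rw [map_inv₀]
    have h3 : τ.1 (jF' k N) = Jc 1 (pn N) := τ.2
    rw [h3]
    have h4 : (Jc 1 (pn N) : LaurentSeries k) ≠ 0 := by
      rw [← h3]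
      intro h0
      rw [map_eq_zero] at h0
      exact hj0 h0
    have h5 := HahnSeries.order_mul h4 (inv_ne_zero h4)
    rw [mul_inv_cancel₀ h4, HahnSeries.order_one, order_Jc, coe_pn] at h5
    linarith
  have hmg : ∀ τ, m τ = (Nat.gcd N (τ.s ^ 2) : ℤ) := by
    intro τ
    have hg0 : 0 < Nat.gcd N (τ.s ^ 2) := Nat.gcd_pos_of_pos_left _ (NeZero.pos N)
    -- `g ≤ m`
    have h3 : (pl τ).ord (jF' k N)⁻¹ ≤ ((N / Nat.gcd N (τ.s ^ 2) : ℕ) : ℤ) := by
      rw [← hper τ]
      have h4 := Function.IsPeriodicPt.minimalPeriod_le (f := rot z hz.pow_eq_one) (x := τ)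
        (n := N / Nat.gcd N (τ.s ^ 2))
        (Nat.div_pos (Nat.le_of_dvd (NeZero.pos N) (Nat.gcd_dvd_left _ _)) hg0)
        (rot_iterate_eq hN hz τ)
      exact_mod_cast h4
    have h4 : (Nat.gcd N (τ.s ^ 2) : ℤ) ≤ m τ := by
      have h5 : ((N / Nat.gcd N (τ.s ^ 2) : ℕ) : ℤ) * (Nat.gcd N (τ.s ^ 2) : ℤ) = N := by
        rw [← Nat.cast_mul, Nat.div_mul_cancel (Nat.gcd_dvd_left _ _)]
      have h6 := hmN τ
      have h7 := hpos τ
      by_contra hcon
      push Not at hcon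
      have h8 : m τ * (pl τ).ord (jF' k N)⁻¹ <
          (Nat.gcd N (τ.s ^ 2) : ℤ) * (pl τ).ord (jF' k N)⁻¹ :=
        mul_lt_mul_of_pos_right hcon h7
      have h9 : (Nat.gcd N (τ.s ^ 2) : ℤ) * (pl τ).ord (jF' k N)⁻¹ ≤
          (Nat.gcd N (τ.s ^ 2) : ℤ) * ((N / Nat.gcd N (τ.s ^ 2) : ℕ) : ℤ) :=
        mul_le_mul_of_nonneg_left h3 (by positivity)
      rw [h6] at h8
      rw [mul_comm] at h5
      rw [h5] at h9
      linarith
    -- `m ∣ N` and `m ∣ s ^ 2`
    have h5 : m τ ∣ (N : ℤ) := ⟨_, (hmN τ).symm⟩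
    have h6 : m τ ∣ ((τ.s ^ 2 : ℕ) : ℤ) := by
      have h7 : (τ.1 (jm k (pn N) dvd_rfl)).order * (N : ℤ) =
        -((N * Nat.gcd N τ.s ^ 2 : ℕ) : ℤ) := τ.order_jm hN (pn N) dvd_rfl
      have h8 : jm k (pn N) dvd_rfl ≠ 0 := by
        intro h0
        have h9 : (Jc 1 (pn N) : LaurentSeries k) = 0 := congrArg Subtype.val h0
        have h10 := order_Jc (k := k) 1 (pn N)
        rw [h9, HahnSeries.order_zero, coe_pn] at h10
        have := NeZero.pos N
        omega
      have h9 := hm τ _ h8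
      change (τ.1 (jm k (pn N) dvd_rfl)).order = _ at h9
      rw [h9, Nat.gcd_eq_right (τ.s_dvd hN)] at h7
      have h10 : m τ * (pl τ).ord (jm k (pn N) dvd_rfl) = -((τ.s ^ 2 : ℕ) : ℤ) := by
        have hN0 : (N : ℤ) ≠ 0 := by exact_mod_cast NeZero.ne N
        apply mul_right_cancel₀ hN0
        refine h7.trans ?_
        push_cast
        ring
      exact ⟨-(pl τ).ord (jm k (pn N) dvd_rfl), by rw [mul_neg, h10, neg_neg]⟩
    have h7 : m τ ∣ (Nat.gcd N (τ.s ^ 2) : ℤ) := by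
      have := Int.dvd_coe_gcd h5 h6
      rwa [Int.gcd_natCast_natCast] at this
    exact le_antisymm (Int.le_of_dvd (by exact_mod_cast hg0) h7) h4
  refine ⟨pl, ?_, ?_, ?_, ?_, ?_⟩
  · intro τ f hf
    rw [← hmg]
    exact hm τ f hf
  · intro τ
    have := hpos τ
    rw [Place.ord_inv] at this
    linarith
  · intro v hv
    apply hsurj
    rw [Place.ord_inv]
    linarith
  · rw [← hset]; exact hfin
  · rw [← hset, ← hsum]
    exact Finset.sum_congr rfl fun τ _ => (hmg τ).symm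

end Main

end Fermat.Agent.Cusp
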