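import Fermat.Agent.Cusp.Fricke

/-!
# The places `0` and `∞`, and their behaviour under change of level
-/

set_option autoImplicit false
set_option linter.style.haveILetI false
set_option linter.unusedSectionVars false

noncomputable section

namespace Fermat.Agent.Cusp

open ModularCurve Polynomial IntermediateField Fermat.Agent.ModPoly AlgebraicCurve

section Inf

variable {k : Type*} [Field k] {N : ℕ}

/-- A place from an embedding into `k((q))` with an element of order `-1` in the image. -/
theorem exists_place_of_order {F : Type*} [Field F] [Algebra k F] (φ : F →ₐ[k] LaurentSeries k)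
    (h : ∃ f : F, (φ f).order = -1) : ∃ v : Place k F, ∀ f : F, v.ord f = (φ f).order := by
  obtain ⟨f, hf⟩ := h
  have hf0 : f ≠ 0 := by
    rintro rfl
    rw [map_zero, HahnSeries.order_zero] at hf
    norm_num at hf
  obtain ⟨v, m, hm, h⟩ := Curve.exists_place_of_valuation (K := k) (fun f => (φ f).order)
    (fun f g hf hg => by
      simp only [map_mul]
      exact HahnSeries.order_mul (by rwa [ne_eq, map_eq_zero]) (by rwa [ne_eq, map_eq_zero]))
    (fun f g hf hg hfg => by
      simp only [map_add]
      apply HahnSeries.min_order_le_order_add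
      rwa [← map_add, ne_eq, map_eq_zero])
    (fun a _ => by
      rw [AlgHom.commutes, algebraMap_eq_C, HahnSeries.order_C])
    ⟨f, hf0, by simp only [hf]; norm_num⟩
  have h1 : m = 1 := by
    have h2 : m * v.ord f = -1 := by rw [← h f hf0]; exact hf
    have h3 : m ∣ 1 := ⟨-v.ord f, by rw [mul_neg, h2, neg_neg]⟩
    exact Int.eq_one_of_dvd_one hm.le h3
  refine ⟨v, fun f => ?_⟩
  rcases eq_or_ne f 0 with rfl | hf
  · rw [map_zero, HahnSeries.order_zero]; simp
  · have h2 := h f hf
    rw [h1, one_mul] at h2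
    exact h2.symm

theorem order_jF : ((jF' k N : FF k N) : LaurentSeries k).order = -1 := order_Jc 1 1

variable (k N) in
theorem exists_cuspInf : ∃ v : Place k (FF k N), ∀ f : FF k N,
    v.ord f = (f : LaurentSeries k).order :=
  exists_place_of_order (FF k N).val ⟨jF' k N, order_jF (N := N)⟩

variable (k N) in
/-- the cusp `∞`: the order of the `q`-expansion -/
def cuspInf : Place k (FF k N) := (exists_cuspInf k N).choose

theorem cuspInf_ord (f : FF k N) : (cuspInf k N).ord f = (f : LaurentSeries k).order :=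
  (exists_cuspInf k N).choose_spec f

end Inf

section Zero

variable {k : Type*} [Field k] [IsAlgClosed k] {N : ℕ} [NeZero N]

theorem exists_cusp0 (hN : (N : k) ≠ 0) : ∃ v : Place k (FF k N), ∀ f : FF k N,
    v.ord f = (fricke hN f : LaurentSeries k).order :=
  exists_place_of_order (frickeL hN) ⟨fricke hN (jF' k N), by
    rw [← coe_fricke, fricke_fricke, order_jF]⟩

/-- the cusp `0` -/
def cusp0 (hN : (N : k) ≠ 0) : Place k (FF k N) := (exists_cusp0 hN).choose

theorem cusp0_ord (hN : (N : k) ≠ 0) (f : FF k N) :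
    (cusp0 hN).ord f = (fricke hN f : LaurentSeries k).order :=
  (exists_cusp0 hN).choose_spec f

theorem cusp0_ord' (hN : (N : k) ≠ 0) (f : FF k N) :
    (cusp0 hN).ord f = (cuspInf k N).ord (fricke hN f) := by
  rw [cusp0_ord, cuspInf_ord]

theorem cusp0_ord_jm (hN : (N : k) ≠ 0) {m m' : ℕ+} (h : (m' : ℕ) * m = N) :
    (cusp0 hN).ord (jm k m (dvd_of_mul_eq' h)) = -(m' : ℤ) := by
  rw [cusp0_ord, fricke_jm hN h]
  exact order_Jc 1 m'

theorem cusp0_ord_j (hN : (N : k) ≠ 0) : (cusp0 hN).ord (jF' k N) = -(N : ℤ) :=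
  cusp0_ord_jm hN (m := 1) (m' := pn N) (by simp)

omit [IsAlgClosed k] [NeZero N] in
theorem cuspInf_ord_jm {m : ℕ+} (hm : (m : ℕ) ∣ N) : (cuspInf k N).ord (jm k m hm) = -(m : ℤ) := by
  rw [cuspInf_ord]
  exact order_Jc 1 m

end Zero

section Level

variable {k : Type*} [Field k] {N M : ℕ}

theorem FF_mono (h : N ∣ M) : FF k N ≤ FF k M := by
  rw [FF_eq_adjoin, IntermediateField.adjoin_le_iff]
  rintro _ ⟨m, hm, rfl⟩
  exact Jc_one_mem (hm.trans h)

variable (k) in
/-- the inclusion of modular function fields -/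
def incl (h : N ∣ M) : FF k N →ₐ[k] FF k M := IntermediateField.inclusion (FF_mono h)

theorem coe_incl (h : N ∣ M) (f : FF k N) : ((incl k h f : FF k M) : LaurentSeries k) = f :=
  IntermediateField.coe_inclusion (FF_mono h) f

theorem incl_jm (h : N ∣ M) {m : ℕ+} (hm : (m : ℕ) ∣ N) :
    incl k h (jm k m hm) = jm k m (hm.trans h) := Subtype.ext (coe_incl h _)

theorem incl_jF (h : N ∣ M) : incl k h (jF' k N) = jF' k M := Subtype.ext (coe_incl h _)

theorem cuspInf_incl (h : N ∣ M) (f : FF k N) :
    (cuspInf k M).ord (incl k h f) = (cuspInf k N).ord f := by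
  rw [cuspInf_ord, cuspInf_ord, coe_incl]

variable [IsAlgClosed k] [NeZero N] [NeZero M]

theorem ne_zero_of_dvd' (h : N ∣ M) (hM : (M : k) ≠ 0) : (N : k) ≠ 0 := ne_zero_of_dvd hM h

theorem frickeL_incl (h : N ∣ M) (hM : (M : k) ≠ 0) (t : ℕ+) (ht : (t : ℕ) * N = M)
    (f : FF k N) : frickeL hM (incl k h f) = SbA 1 t (frickeL (ne_zero_of_dvd' h hM) f) := by
  have h1 : (frickeL hM).comp (incl k h) = (SbA 1 t).comp (frickeL (ne_zero_of_dvd' h hM)) := by
    apply hom_ext
    intro m hm
    obtain ⟨m', hm'⟩ := exists_compl (N := N) hm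
    rw [AlgHom.comp_apply, AlgHom.comp_apply, incl_jm, frickeL_jm _ hm hm',
      frickeL_jm (m' := t * m') _ (hm.trans h) (by
        rw [PNat.mul_coe, mul_assoc, hm', ht]), SbA_apply, Sb_Jc, one_pow, one_mul]
  exact AlgHom.congr_fun h1 f

/-- the cusp `0` is ramified of index `M / N` over the cusp `0` of level `N` -/
theorem cusp0_incl (h : N ∣ M) (hM : (M : k) ≠ 0) (f : FF k N) :
    (cusp0 hM).ord (incl k h f) = ((M / N : ℕ) : ℤ) * (cusp0 (ne_zero_of_dvd' h hM)).ord f := by
  obtain ⟨t, ht⟩ := h
  have ht0 : 0 < t := Nat.pos_of_ne_zero (by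
    rintro rfl
    rw [mul_zero] at ht
    exact NeZero.ne M ht)
  have h2 : M / N = t := by rw [ht, Nat.mul_div_cancel_left _ (NeZero.pos N)]
  obtain ⟨t', ht'⟩ : ∃ t' : ℕ+, (t' : ℕ) = t := ⟨⟨t, ht0⟩, rfl⟩
  rw [cusp0_ord, cusp0_ord, coe_fricke, coe_fricke,
    frickeL_incl ⟨t, ht⟩ hM t' (by rw [ht, mul_comm, ht']), SbA_apply, order_Sb, h2, ht']

end Level

section Degree

variable {k : Type*} [Field k] {N M : ℕ}

/-- the algebra structure given by the inclusion -/
@[reducible] def inclAlg (h : N ∣ M) : Algebra (FF k N) (FF k M) := (incl k h).toRingHom.toAlgebra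

theorem isScalarTower_incl (h : N ∣ M) :
    letI := inclAlg (k := k) h; IsScalarTower k (FF k N) (FF k M) := by
  letI := inclAlg (k := k) h
  exact IsScalarTower.of_algebraMap_eq fun a => ((incl k h).commutes a).symm

theorem incl_mem_EE (h : N ∣ M) (x : FF k N) (hx : x ∈ EE k N) : incl k h x ∈ EE k M := by
    induction hx using IntermediateField.adjoin_induction with
    | mem x hx =>
      rw [Set.mem_singleton_iff] at hx
      rw [hx, incl_jF]
      exact IntermediateField.mem_adjoin_simple_self k (jF' k M)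
    | algebraMap x => rw [AlgHom.commutes]; exact (EE k M).algebraMap_mem x
    | add x y _ _ hx hy =>
      have h1 := (incl k h).toRingHom.map_add x y
      change incl k h (x + y) = incl k h x + incl k h y at h1
      rw [h1]; exact add_mem hx hy
    | inv x _ hx => rw [map_inv₀]; exact inv_mem hx
    | mul x y _ _ hx hy => rw [map_mul]; exact mul_mem hx hy

/-- `k(j)` at levels `N` and `M` -/
def EEhom (h : N ∣ M) : EE k N →+* EE k M where
  toFun x := ⟨incl k h x.1, incl_mem_EE h x.1 x.2⟩
  map_one' := Subtype.ext (map_one (incl k h))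
  map_zero' := Subtype.ext (map_zero (incl k h).toRingHom)
  map_mul' x y := Subtype.ext (map_mul (incl k h) x.1 y.1)
  map_add' x y := Subtype.ext ((incl k h).toRingHom.map_add x.1 y.1)

theorem coe_EEhom (h : N ∣ M) (x : EE k N) : ((EEhom h x : EE k M) : FF k M) = incl k h x.1 := rfl

theorem EEhom_surjective (h : N ∣ M) : Function.Surjective (EEhom (k := k) h) := by
  intro y
  have h1 : EE k M ≤ (EE k N).map (incl k h) := by
    rw [IntermediateField.adjoin_le_iff, Set.singleton_subset_iff]
    exact ⟨jF' k N, IntermediateField.mem_adjoin_simple_self k (jF' k N), incl_jF h⟩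
  obtain ⟨x, hx, hxy⟩ := h1 y.2
  exact ⟨⟨x, hx⟩, Subtype.ext hxy⟩

theorem incl_injective (h : N ∣ M) : Function.Injective (incl k h) := by
  intro x y hxy
  apply Subtype.ext
  rw [← coe_incl h x, hxy, coe_incl]

theorem EEhom_injective (h : N ∣ M) : Function.Injective (EEhom (k := k) h) := by
  intro x y hxy
  apply Subtype.ext
  exact incl_injective h (congrArg Subtype.val hxy)

/-- `k(j)` at levels `N` and `M` -/
def EEiso (h : N ∣ M) : EE k N ≃+* EE k M := RingEquiv.ofBijective (EEhom h)
    ⟨EEhom_injective h, EEhom_surjective h⟩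

theorem coe_EEiso (h : N ∣ M) (x : EE k N) : ((EEiso h x : EE k M) : FF k M) = incl k h x.1 := rfl

variable [NeZero N] [NeZero M]

theorem sep_aux {E E' F G : Type*} [Field E] [Field E'] [Field F] [Field G] [Algebra E F]
    [Algebra F G] [Algebra E' G] (e : E ≃+* E')
    (h : ∀ x, algebraMap E' G (e x) = algebraMap F G (algebraMap E F x))
    [Algebra.IsSeparable E' G] : Algebra.IsSeparable F G := by
  letI : Algebra E' F := ((algebraMap E F).comp e.symm.toRingHom).toAlgebra
  haveI : IsScalarTower E' F G := by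
    refine IsScalarTower.of_algebraMap_eq fun x => ?_
    change algebraMap E' G x = algebraMap F G (algebraMap E F (e.symm x))
    rw [← h, RingEquiv.apply_symm_apply]
  exact Algebra.isSeparable_tower_top_of_isSeparable E' F G

theorem fin_aux {E E' F G : Type*} [Field E] [Field E'] [Field F] [Field G] [Algebra E F]
    [Algebra F G] [Algebra E' G] (e : E ≃+* E')
    (h : ∀ x, algebraMap E' G (e x) = algebraMap F G (algebraMap E F x))
    [FiniteDimensional E' G] : FiniteDimensional F G := by
  letI : Algebra E' F := ((algebraMap E F).comp e.symm.toRingHom).toAlgebra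
  haveI : IsScalarTower E' F G := by
    refine IsScalarTower.of_algebraMap_eq fun x => ?_
    change algebraMap E' G x = algebraMap F G (algebraMap E F (e.symm x))
    rw [← h, RingEquiv.apply_symm_apply]
  exact Module.Finite.of_restrictScalars_finite E' F G

theorem isSeparable_incl [IsAlgClosed k] (h : N ∣ M) (hM : (M : k) ≠ 0) :
    letI := inclAlg (k := k) h
    Algebra.IsSeparable (FF k N) (FF k M) := by
  letI := inclAlg (k := k) h
  let e : EE k N ≃+* EE k M := EEiso h
  haveI := isSeparable_E (k := k) (N := M) hM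
  have h1 : ∀ x : EE k N, algebraMap (EE k M) (FF k M) (e x) =
      algebraMap (FF k N) (FF k M) (algebraMap (EE k N) (FF k N) x) := fun x => coe_EEiso h x
  exact sep_aux e h1

theorem finiteDimensional_incl [IsAlgClosed k] (h : N ∣ M) (hM : (M : k) ≠ 0) :
    letI := inclAlg (k := k) h
    FiniteDimensional (FF k N) (FF k M) := by
  letI := inclAlg (k := k) h
  let e : EE k N ≃+* EE k M := EEiso h
  haveI := finiteDimensional_E (k := k) (N := M) hM
  have h1 : ∀ x : EE k N, algebraMap (EE k M) (FF k M) (e x) =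
      algebraMap (FF k N) (FF k M) (algebraMap (EE k N) (FF k N) x) := fun x => coe_EEiso h x
  exact fin_aux e h1

set_option synthInstance.maxHeartbeats 400000 in
set_option maxHeartbeats 1000000 in
/-- the relative degree -/
theorem finrank_incl [IsAlgClosed k] (h : N ∣ M) (hM : (M : k) ≠ 0) :
    letI := inclAlg (k := k) h
    dedekindPsi N * Module.finrank (FF k N) (FF k M) = dedekindPsi M := by
  letI := inclAlg (k := k) h
  have hN := ne_zero_of_dvd' h hM
  let e : EE k N ≃+* EE k M := EEiso h
  letI : Algebra (EE k N) (FF k M) := ((EE k M).val.toRingHom.comp e.toRingHom).toAlgebra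
  haveI : IsScalarTower (EE k N) (FF k N) (FF k M) := by
    refine IsScalarTower.of_algebraMap_eq fun x => ?_
    rfl
  have h1 : Module.finrank (EE k N) (FF k M) = Module.finrank (EE k M) (FF k M) :=
    Algebra.finrank_eq_of_equiv_equiv e (RingEquiv.refl (FF k M)) (by
      ext x
      rfl)
  rw [← finrank_E hN, ← finrank_E hM, ← h1]
  exact Module.finrank_mul_finrank (EE k N) (FF k N) (FF k M)

end Degree

end Fermat.Agent.Cusp
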