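import Fermat.Agent.Cusp.Places
import Fermat.Agent.X0Genus.Full

/-!
# The number of cusps in any characteristic prime to the level
-/

set_option autoImplicit false
set_option linter.style.haveILetI false
set_option linter.unusedSectionVars false

noncomputable section

namespace Fermat.Agent.Cusp

open ModularCurve Polynomial IntermediateField Fermat.Agent.ModPoly AlgebraicCurve

variable {k : Type*} [Field k] [IsAlgClosed k] {N : ℕ} [NeZero N]

theorem fam (hN : (N : k) ≠ 0) [Fintype (Emb k N)] : Fam N (fun τ : Emb k N => τ.s) where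
  dvd τ := τ.s_dvd hN
  sum m hm := sum_gcd_sq hN m hm
  card := by rw [← Nat.card_eq_fintype_card, card_Emb hN]

theorem ncard_eq_ncard {k' : Type*} [Field k'] [IsAlgClosed k'] (hN : (N : k) ≠ 0)
    (hN' : (N : k') ≠ 0) :
    Set.ncard {v : Place k (FF k N) | v.ord (jF' k N) < 0} =
      Set.ncard {v : Place k' (FF k' N) | v.ord (jF' k' N) < 0} := by
  haveI := finite_Emb (k := k) (N := N) hN
  haveI := finite_Emb (k := k') (N := N) hN'
  letI := Fintype.ofFinite (Emb k N)
  letI := Fintype.ofFinite (Emb k' N)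
  obtain ⟨-, -, -, -, -, h1⟩ := exists_places (k := k) (N := N) hN
  obtain ⟨-, -, -, -, -, h2⟩ := exists_places (k := k') (N := N) hN'
  have h3 := (fam (k := k) (N := N) hN).sum_eq (NeZero.pos N) (fam (k := k') (N := N) hN')
    (fun s => (Nat.gcd N (s ^ 2) : ℤ))
  rw [h1, h2] at h3
  have hN0 : (N : ℤ) ≠ 0 := by exact_mod_cast NeZero.ne N
  have h4 := mul_left_cancel₀ hN0 h3
  exact_mod_cast h4

theorem ncard_of_eq (E : IntermediateField k (LaurentSeries k))
    (h : E = modularFunctionFieldFullC k N) (j : E) (hj : (j : LaurentSeries k) = jqModC k) :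
    Set.ncard {v : Place k E | v.ord j < 0} =
    Set.ncard {v : Place k (FF k N) | v.ord (jF' k N) < 0} := by
  subst h
  have : j = jF' k N := by
    apply Subtype.ext
    rw [hj]
    exact Jc_one_one.symm
  subst this
  rfl

/-- The number of places of the modular function field at the poles of `j`. -/
theorem card_cusps (hN : (N : k) ≠ 0) :
    Set.ncard {v : Place k (FF k N) | v.ord (jF' k N) < 0} = cuspCount N := by
  have hN' : (N : ℂ) ≠ 0 := by exact_mod_cast NeZero.ne N
  rw [ncard_eq_ncard (k' := ℂ) hN hN', ← X0Genus.count_cusps (K := ℂ) N (RingHom.id ℂ)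
    (X0Genus.finrank_jj ℂ N), ncard_of_eq _ (X0Genus.baseChange_eq ℂ N) (X0Genus.jj ℂ N)
    (X0Genus.coe_jj N)]

end Fermat.Agent.Cusp
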