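import Fermat.Agent.ModPoly.Main

/-!
# Embeddings of the modular function field into Laurent series
-/

set_option autoImplicit false
set_option linter.style.haveILetI false
set_option linter.unusedSectionVars false

noncomputable section

namespace Fermat.Agent.Cusp

open ModularCurve Polynomial IntermediateField Fermat.Agent.ModPoly

section

variable {k : Type*} [Field k] {N : ℕ} [NeZero N]

/-- `k`-algebra maps out of `FF k N` agreeing on the generators agree. -/
theorem hom_ext {Ω : Type*} [Semiring Ω] [Algebra k Ω] {σ τ : FF k N →ₐ[k] Ω}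
    (h : ∀ (m : ℕ+) (hm : (m : ℕ) ∣ N), σ (jm k m hm) = τ (jm k m hm)) : σ = τ := by
  apply AlgHom.ext
  intro x
  have h4 : x ∈ IntermediateField.adjoin k
      {x : FF k N | ∃ (m : ℕ+) (hm : (m : ℕ) ∣ N), x = jm k m hm} := by
    rw [adjoin_jm_eq_top]; exact IntermediateField.mem_top
  induction h4 using IntermediateField.adjoin_induction with
  | mem x hx =>
    obtain ⟨m, hm, rfl⟩ := hx
    exact h m hm
  | algebraMap x => rw [AlgHom.commutes, AlgHom.commutes]
  | add x y _ _ hx hy =>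
    have h1 := σ.toRingHom.map_add x y
    have h2 := τ.toRingHom.map_add x y
    change σ (x + y) = σ x + σ y at h1
    change τ (x + y) = τ x + τ y at h2
    rw [h1, h2, hx, hy]
  | inv x _ hx =>
    rcases eq_or_ne x 0 with rfl | hx0
    · rw [inv_zero, map_zero, map_zero]
    · have h1 : x⁻¹ * x = 1 := inv_mul_cancel₀ hx0
      have h2 : σ x * σ x⁻¹ = 1 := by rw [← map_mul, mul_inv_cancel₀ hx0, map_one]
      have h3 : τ x⁻¹ * τ x = 1 := by rw [← map_mul, h1, map_one]
      rw [← hx] at h3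
      exact (left_inv_eq_right_inv h3 h2).symm
  | mul x y _ _ hx hy => rw [map_mul, map_mul, hx, hy]

variable (k N) in
/-- embeddings of the modular function field into `k((q))` with `j ↦ j(q^N)` -/
def Emb : Type _ := {τ : FF k N →ₐ[k] LaurentSeries k // τ (jm k 1 (one_dvd N)) = Jc 1 (pn N)}

theorem Emb.ext' {τ τ' : Emb k N}
    (h : ∀ (m : ℕ+) (hm : (m : ℕ) ∣ N), τ.1 (jm k m hm) = τ'.1 (jm k m hm)) : τ = τ' :=
  Subtype.ext (hom_ext h)

/-- the width-like invariant of an embedding -/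
def Emb.s (τ : Emb k N) : ℕ := Nat.sqrt (-(τ.1 (jm k (pn N) dvd_rfl)).order).toNat

variable [IsAlgClosed k] (hN : (N : k) ≠ 0)

include hN

theorem Emb.exists_data (τ : Emb k N) : ∃ (c : ℕ → kˣ) (e : ℕ → ℕ+) (s : ℕ → ℕ) (κ : ℕ → k),
    ∀ (m : ℕ+) (hm : (m : ℕ) ∣ N),
      IsAt (AlgHom.id k (LaurentSeries k)) τ.1 hN (pn N) m hm (c m) (e m) (s m) (κ m) :=
  exists_fun (i := AlgHom.id k (LaurentSeries k)) τ.1 hN τ.2

theorem Emb.s_eq (τ : Emb k N) {c : kˣ} {e : ℕ+} {s : ℕ} {κ : k}
    (h : IsAt (AlgHom.id k (LaurentSeries k)) τ.1 hN (pn N) (pn N) dvd_rfl c e s κ) :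
    τ.s = s := by
  have h1 : τ.1 (jm k (pn N) dvd_rfl) = Jc c e := h.map_j
  have h2 := h.mul_eq
  have h3 : (e : ℕ) = s ^ 2 := by
    apply Nat.eq_of_mul_eq_mul_left (NeZero.pos N)
    rw [← h2, coe_pn]
    ring
  rw [Emb.s, h1, order_Jc, neg_neg, Int.toNat_natCast, h3, Nat.sqrt_eq']

/-- The structure of the embeddings. -/
theorem Emb.exists_data' (τ : Emb k N) : ∃ (c : ℕ → kˣ) (e : ℕ → ℕ+) (κ : ℕ → k),
    ∀ (m : ℕ+) (hm : (m : ℕ) ∣ N),
      IsAt (AlgHom.id k (LaurentSeries k)) τ.1 hN (pn N) m hm (c m) (e m) (Nat.gcd m τ.s) (κ m) := by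
  obtain ⟨c, e, s, κ, h⟩ := τ.exists_data hN
  refine ⟨c, e, κ, fun m hm => ?_⟩
  have h1 := h m hm
  have h2 := s_gcd (i := AlgHom.id k (LaurentSeries k)) τ.1 hN h m hm
  have h3 : τ.s = s N := τ.s_eq hN (h (pn N) dvd_rfl)
  rw [h3, ← h2]
  exact h1

theorem Emb.s_dvd (τ : Emb k N) : τ.s ∣ N := by
  obtain ⟨c, e, s, κ, h⟩ := τ.exists_data hN
  rw [τ.s_eq hN (h (pn N) dvd_rfl)]
  exact (h (pn N) dvd_rfl).dvd

omit [IsAlgClosed k] hN in
theorem Emb.c_one (τ : Emb k N) {c : kˣ} {e : ℕ+}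
    (h : τ.1 (jm k 1 (one_dvd N)) = Jc c e) : c = 1 ∧ e = pn N := by
  rw [τ.2] at h
  have h4 : pn N = e := Jc_inj_e h
  rw [← h4] at h
  exact ⟨(Jc_inj_c h).symm, h4.symm⟩

end

section Omega

variable {k : Type*} [Field k] {N : ℕ} [NeZero N]

variable {Ω : Type*} [Field Ω] [Algebra k Ω] (i : LaurentSeries k →ₐ[k] Ω)

/-- the algebra structure of `Ω` over `k(j)` with `j ↦ j(q^N)` -/
@[reducible] def algE : Algebra (EE k N) Ω :=
  ((tauE (N := N) i).toRingHom.comp (EE k N).val.toRingHom).toAlgebra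

theorem tower_algE : letI := algE (N := N) i; IsScalarTower k (EE k N) Ω := by
  letI := algE (N := N) i
  refine IsScalarTower.of_algebraMap_eq (fun a => ?_)
  change _ = tauE i (algebraMap k (FF k N) a)
  rw [AlgHom.commutes]

theorem agree_E {Ω : Type*} [Field Ω] [Algebra k Ω] (σ τ : FF k N →ₐ[k] Ω)
    (h : σ (jF' k N) = τ (jF' k N)) (x : FF k N) (hx : x ∈ EE k N) : σ x = τ x := by
  induction hx using IntermediateField.adjoin_induction with
  | mem x hx =>
    rw [Set.mem_singleton_iff] at hx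
    rw [hx, h]
  | algebraMap x => rw [AlgHom.commutes, AlgHom.commutes]
  | add x y _ _ hx hy =>
    have h1 := σ.toRingHom.map_add x y
    have h2 := τ.toRingHom.map_add x y
    change σ (x + y) = σ x + σ y at h1
    change τ (x + y) = τ x + τ y at h2
    rw [h1, h2, hx, hy]
  | inv x _ hx => rw [map_inv₀, map_inv₀, hx]
  | mul x y _ _ hx hy => rw [map_mul, map_mul, hx, hy]

theorem tauE_jF : tauE (N := N) i (jF' k N) = i (Jc 1 (pn N)) :=
  (tauE_jm i 1 (one_dvd N)).trans (by rw [mul_one])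

/-- embeddings into `k((q))` as embeddings into `Ω` -/
def toHom (τ : Emb k N) : letI := algE (N := N) i; FF k N →ₐ[EE k N] Ω :=
  letI := algE (N := N) i
  { (i.comp τ.1).toRingHom with
    commutes' := by
      intro x
      change i (τ.1 (x : FF k N)) = tauE (N := N) i (x : FF k N)
      exact agree_E (i.comp τ.1) (tauE (N := N) i) (by
        rw [tauE_jF, AlgHom.comp_apply, jF', τ.2]) x.1 x.2 }

theorem toHom_apply (τ : Emb k N) (x : FF k N) : toHom i τ x = i (τ.1 x) := rfl

theorem toHom_injective : Function.Injective (toHom (N := N) i) := by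
  intro τ τ' h
  apply Emb.ext'
  intro m hm
  apply i.injective
  letI := algE (N := N) i
  exact AlgHom.congr_fun h (jm k m hm)

variable [IsAlgClosed k] (hN : (N : k) ≠ 0)

include hN in
theorem toHom_surjective : Function.Surjective (toHom (N := N) i) := by
  letI := algE (N := N) i
  haveI : IsScalarTower k (EE k N) Ω := tower_algE i
  intro σ
  have h1 : (σ.restrictScalars k) (jm k 1 (one_dvd N)) = i (Jc 1 (pn N)) := by
    have h1 := σ.commutes ⟨jF' k N, IntermediateField.mem_adjoin_simple_self k (jF' k N)⟩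
    have h2 : (algebraMap (EE k N) Ω) ⟨jF' k N, IntermediateField.mem_adjoin_simple_self k (jF' k N)⟩
        = i (Jc 1 (pn N)) := tauE_jF i
    rw [h2] at h1
    exact h1
  obtain ⟨c, e, s, κ, h⟩ := exists_fun (i := i) (σ.restrictScalars k) hN h1
  have hrange : ∀ x : FF k N, σ x ∈ i.range := by
    intro x
    have h4 : x ∈ IntermediateField.adjoin k
        {x : FF k N | ∃ (m : ℕ+) (hm : (m : ℕ) ∣ N), x = jm k m hm} := by
      rw [adjoin_jm_eq_top]; exact IntermediateField.mem_top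
    induction h4 using IntermediateField.adjoin_induction with
    | mem x hx =>
      obtain ⟨m, hm, rfl⟩ := hx
      exact ⟨_, (h m hm).map_j.symm⟩
    | algebraMap x => exact ⟨algebraMap k _ x, by
        rw [AlgHom.toRingHom_eq_coe, RingHom.coe_coe, AlgHom.commutes]
        exact ((σ.restrictScalars k).commutes x).symm⟩
    | add x y _ _ hx hy => rw [map_add]; exact add_mem hx hy
    | inv x _ hx =>
      rw [map_inv₀]
      obtain ⟨y, hy⟩ := hx
      exact ⟨y⁻¹, by rw [map_inv₀, hy]⟩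
    | mul x y _ _ hx hy => rw [map_mul]; exact mul_mem hx hy
  let e' := AlgEquiv.ofInjective i i.injective
  let τ : FF k N →ₐ[k] LaurentSeries k :=
    (e'.symm : i.range →ₐ[k] LaurentSeries k).comp ((σ.restrictScalars k).codRestrict i.range hrange)
  have hτ : ∀ x, i (τ x) = σ x := by
    intro x
    have h5 := e'.apply_symm_apply ⟨σ x, hrange x⟩
    exact congrArg Subtype.val h5
  refine ⟨⟨τ, ?_⟩, ?_⟩
  · apply i.injective
    exact (hτ _).trans h1
  · apply AlgHom.ext
    intro x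
    exact hτ x

include hN in
theorem toHom_bijective : Function.Bijective (toHom (N := N) i) :=
  ⟨toHom_injective i, toHom_surjective i hN⟩

end Omega

section Count

variable {k : Type*} [Field k] [IsAlgClosed k] {N : ℕ} [NeZero N] (hN : (N : k) ≠ 0)

section

variable {Ω : Type*} [Field Ω] [IsAlgClosed Ω] [Algebra k Ω] (i : LaurentSeries k →ₐ[k] Ω)

include hN i in
omit [IsAlgClosed Ω] in
theorem finite_Emb_aux : Finite (Emb k N) := by
  letI := algE (N := N) i
  haveI := finiteDimensional_E (k := k) (N := N) hN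
  exact Finite.of_injective _ (toHom_injective (N := N) i)

include hN i in
theorem card_Emb_aux : Nat.card (Emb k N) = dedekindPsi N := by
  letI := algE (N := N) i
  haveI := isSeparable_E (k := k) (N := N) hN
  haveI := finiteDimensional_E (k := k) (N := N) hN
  rw [Nat.card_congr (Equiv.ofBijective _ (toHom_bijective (N := N) i hN)),
    Nat.card_eq_fintype_card, AlgHom.card, finrank_E hN]

set_option maxHeartbeats 1000000 in
set_option synthInstance.maxHeartbeats 400000 in
include hN i in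
theorem sum_gcd_sq_aux [Fintype (Emb k N)] (m : ℕ) (hm : m ∣ N) :
    ∑ τ : Emb k N, (Nat.gcd m τ.s) ^ 2 = m * Fintype.card (Emb k N) := by
  classical
  letI := algE (N := N) i
  haveI := isSeparable_E (k := k) (N := N) hN
  haveI := finiteDimensional_E (k := k) (N := N) hN
  haveI : IsScalarTower k (EE k N) Ω := tower_algE (N := N) i
  have hm0 : 0 < m := Nat.pos_of_dvd_of_pos hm (NeZero.pos N)
  choose c e κ h using fun τ : Emb k N => τ.exists_data' hN
  have key : ∑ τ : Emb k N, (((e τ m : ℕ+) : ℕ) - (((pn N : ℕ+) : ℕ) : ℤ)) = 0 := by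
    obtain ⟨a, ha, ha'⟩ := norm_rm hN (mkp m hm0) hm
    have h2 := Algebra.norm_eq_prod_embeddings (EE k N) Ω
      (⟨rm k (mkp m hm0), rm_mem hN (mkp m hm0) hm⟩ : FF k N)
    rw [ha', ← IsScalarTower.algebraMap_apply k (EE k N) Ω,
      ← (Equiv.ofBijective _ (toHom_bijective (N := N) i hN)).prod_comp] at h2
    have h3 : ∀ τ : Emb k N,
        (Equiv.ofBijective _ (toHom_bijective (N := N) i hN)) τ
          ⟨rm k (mkp m hm0), rm_mem hN (mkp m hm0) hm⟩ =
        i (HahnSeries.C (κ τ m) * Dc (c τ m) (e τ m) * (Dc 1 (pn N))⁻¹) :=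
      fun τ => congrArg i (h τ (mkp m hm0) hm).map_r
    simp_rw [h3] at h2
    rw [← map_prod, ← i.commutes, algebraMap_eq_C] at h2
    have h4 := i.injective h2
    have h5 := congrArg HahnSeries.order h4
    have hκ : ∀ τ : Emb k N, κ τ m ≠ 0 := fun τ => (h τ (mkp m hm0) hm).κ_ne
    rw [HahnSeries.order_C, order_prod _ _ (fun τ _ => (order_term (hκ τ) _ _ _).2)] at h5
    rw [h5]
    exact Finset.sum_congr rfl fun τ _ => ((order_term (hκ τ) _ _ _).1).symm
  have key2 : ∑ τ : Emb k N, ((e τ m : ℕ+) : ℕ) = N * Fintype.card (Emb k N) := by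
    rw [Finset.sum_sub_distrib, Finset.sum_const, sub_eq_zero, coe_pn, Finset.card_univ,
      nsmul_eq_mul] at key
    have : ((∑ τ : Emb k N, ((e τ m : ℕ+) : ℕ) : ℕ) : ℤ) =
      ((N * Fintype.card (Emb k N) : ℕ) : ℤ) := by
      push_cast
      rw [key]
      ring
    exact_mod_cast this
  have h6 : ∀ τ : Emb k N, ((e τ m : ℕ+) : ℕ) * m = N * (Nat.gcd m τ.s) ^ 2 := by
    intro τ
    exact (h τ (mkp m hm0) hm).mul_eq
  apply Nat.eq_of_mul_eq_mul_left (NeZero.pos N)
  rw [Finset.mul_sum]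
  calc ∑ τ : Emb k N, N * (Nat.gcd m τ.s) ^ 2 = ∑ τ : Emb k N, ((e τ m : ℕ+) : ℕ) * m :=
        Finset.sum_congr rfl fun τ _ => (h6 τ).symm
    _ = _ := by rw [← Finset.sum_mul, key2]; ring

end

include hN in
theorem finite_Emb : Finite (Emb k N) :=
  finite_Emb_aux hN (IsScalarTower.toAlgHom k (LaurentSeries k) (AlgebraicClosure (LaurentSeries k)))

include hN in
theorem card_Emb : Nat.card (Emb k N) = dedekindPsi N :=
  card_Emb_aux hN (IsScalarTower.toAlgHom k (LaurentSeries k) (AlgebraicClosure (LaurentSeries k)))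

include hN in
theorem sum_gcd_sq [Fintype (Emb k N)] (m : ℕ) (hm : m ∣ N) :
    ∑ τ : Emb k N, (Nat.gcd m τ.s) ^ 2 = m * Fintype.card (Emb k N) :=
  sum_gcd_sq_aux hN
    (IsScalarTower.toAlgHom k (LaurentSeries k) (AlgebraicClosure (LaurentSeries k))) m hm

end Count

end Fermat.Agent.Cusp
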