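import Fermat.Agent.Cusp.Count

/-!
# The Fricke involution and the cusps `0`, `∞`, in any characteristic prime to the level
-/

set_option autoImplicit false
set_option linter.style.haveILetI false
set_option linter.unusedSectionVars false

noncomputable section

namespace Fermat.Agent.Cusp

open ModularCurve Polynomial IntermediateField Fermat.Agent.ModPoly AlgebraicCurve

section Fricke

variable {k : Type*} [Field k] [IsAlgClosed k] {N : ℕ} [NeZero N]

theorem exists_fricke_aux (hN : (N : k) ≠ 0) : ∃ w : FF k N →ₐ[k] LaurentSeries k,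
    ∀ (m m' : ℕ+) (hm : (m : ℕ) ∣ N), (m' : ℕ) * m = N → w (jm k m hm) = Jc 1 m' := by
  haveI := finite_Emb (k := k) (N := N) hN
  letI := Fintype.ofFinite (Emb k N)
  obtain ⟨τ, hτ⟩ := (fam (k := k) (N := N) hN).exists_one (NeZero.pos N)
  have hτ' : τ.s = 1 := hτ
  obtain ⟨c, e, κ, h⟩ := τ.exists_data' hN
  rw [hτ'] at h
  simp only [Nat.gcd_one_right] at h
  have he : ∀ (m : ℕ+), (m : ℕ) ∣ N → (e m : ℕ) * m = N := by
    intro m hm
    rw [(h m hm).mul_eq, one_pow, mul_one]
  have hstep : ∀ (p : ℕ) [Fact p.Prime] (m : ℕ+), ((pp p * m : ℕ+) : ℕ) ∣ N →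
      c (pp p * m : ℕ+) ^ p = c m := by
    intro p _ m hpm
    have hm := ppm_dvd hpm
    have h3 := h (pp p * m) hpm
    rcases (h m hm).next (p := p) hpm with ⟨κ', h'⟩ | ⟨c', e', κ', hc', -, h'⟩
    · exfalso
      have h4 := h3.unique_s h'
      rw [mul_one] at h4
      exact (Fact.out : p.Prime).one_lt.ne h4
    · rw [(h3.unique h').2, hc']
  have hc : ∀ t : ℕ, ∀ m : ℕ+, (m : ℕ) * t = N → c m = c N ^ t := by
    intro t
    induction t using induction_on_primes with
    | zero =>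
      intro m hm
      rw [mul_zero] at hm
      exact absurd hm.symm (NeZero.ne N)
    | one =>
      intro m hm
      rw [mul_one] at hm
      rw [hm, pow_one]
    | prime_mul p a hp ih =>
      intro m hm
      haveI := Fact.mk hp
      have h1 : ((pp p * m : ℕ+) : ℕ) * a = N := by
        rw [← hm]
        simp only [PNat.mul_coe, coe_pp]
        ring
      rw [← hstep p m ⟨a, h1.symm⟩, ih _ h1, ← pow_mul, mul_comm a]
  refine ⟨(SbA (c N)⁻¹ 1).comp τ.1, ?_⟩
  intro m m' hm hmm'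
  have h1 : τ.1 (jm k m hm) = Jc (c m) (e m) := (h m hm).map_j
  have h2 : e m = m' := by
    apply PNat.eq
    apply Nat.eq_of_mul_eq_mul_right m.pos
    rw [he m hm, hmm']
  rw [AlgHom.comp_apply, h1, SbA_one_Jc, h2, hc m' m (by rw [mul_comm]; exact hmm'), inv_pow,
    inv_mul_cancel]

/-- an embedding swapping the cusps -/
def frickeL (hN : (N : k) ≠ 0) : FF k N →ₐ[k] LaurentSeries k := (exists_fricke_aux hN).choose

theorem frickeL_jm (hN : (N : k) ≠ 0) {m m' : ℕ+} (hm : (m : ℕ) ∣ N) (h : (m' : ℕ) * m = N) :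
    frickeL hN (jm k m hm) = Jc 1 m' := (exists_fricke_aux hN).choose_spec m m' hm h

theorem dvd_of_mul_eq {m m' : ℕ+} (h : (m' : ℕ) * m = N) : (m' : ℕ) ∣ N := ⟨_, h.symm⟩

theorem dvd_of_mul_eq' {m m' : ℕ+} (h : (m' : ℕ) * m = N) : (m : ℕ) ∣ N :=
  ⟨_, h.symm.trans (mul_comm _ _)⟩

theorem exists_compl {m : ℕ+} (hm : (m : ℕ) ∣ N) : ∃ m' : ℕ+, (m' : ℕ) * m = N := by
  obtain ⟨t, ht⟩ := hm
  have ht0 : 0 < t := Nat.pos_of_ne_zero (by
    rintro rfl
    rw [mul_zero] at ht
    exact NeZero.ne N ht)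
  exact ⟨⟨t, ht0⟩, by rw [ht, mul_comm]; rfl⟩

theorem frickeL_mem (hN : (N : k) ≠ 0) (x : FF k N) : frickeL hN x ∈ FF k N := by
  have h4 : x ∈ IntermediateField.adjoin k
      {x : FF k N | ∃ (m : ℕ+) (hm : (m : ℕ) ∣ N), x = jm k m hm} := by
    rw [adjoin_jm_eq_top]; exact IntermediateField.mem_top
  induction h4 using IntermediateField.adjoin_induction with
  | mem x hx =>
    obtain ⟨m, hm, rfl⟩ := hx
    obtain ⟨m', hm'⟩ := exists_compl (N := N) hm
    rw [frickeL_jm hN hm hm']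
    exact Jc_one_mem (dvd_of_mul_eq hm')
  | algebraMap x => rw [AlgHom.commutes]; exact (FF k N).algebraMap_mem x
  | add x y _ _ hx hy =>
    have h1 := (frickeL hN).toRingHom.map_add x y
    change frickeL hN (x + y) = frickeL hN x + frickeL hN y at h1
    rw [h1]; exact add_mem hx hy
  | inv x _ hx => rw [map_inv₀]; exact inv_mem hx
  | mul x y _ _ hx hy => rw [map_mul]; exact mul_mem hx hy

/-- the Fricke endomorphism -/
def frickeHom (hN : (N : k) ≠ 0) : FF k N →ₐ[k] FF k N :=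
  (frickeL hN).codRestrict (FF k N).toSubalgebra (frickeL_mem hN)

theorem coe_frickeHom (hN : (N : k) ≠ 0) (x : FF k N) :
    (frickeHom hN x : LaurentSeries k) = frickeL hN x := rfl

theorem frickeHom_jm (hN : (N : k) ≠ 0) {m m' : ℕ+} (h : (m' : ℕ) * m = N) :
    frickeHom hN (jm k m (dvd_of_mul_eq' h)) = jm k m' (dvd_of_mul_eq h) :=
  Subtype.ext (frickeL_jm hN _ h)

theorem frickeHom_frickeHom (hN : (N : k) ≠ 0) :
    (frickeHom hN).comp (frickeHom hN) = AlgHom.id k (FF k N) := by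
  apply hom_ext
  intro m hm
  obtain ⟨m', hm'⟩ := exists_compl (N := N) hm
  rw [AlgHom.comp_apply]
  have h1 := frickeHom_jm hN hm'
  have h2 := frickeHom_jm hN (m := m') (m' := m) (by rw [mul_comm]; exact hm')
  rw [h1, h2]
  rfl

/-- the Fricke involution of the modular function field -/
def fricke (hN : (N : k) ≠ 0) : FF k N ≃ₐ[k] FF k N :=
  AlgEquiv.ofAlgHom (frickeHom hN) (frickeHom hN) (frickeHom_frickeHom hN) (frickeHom_frickeHom hN)

theorem fricke_jm (hN : (N : k) ≠ 0) {m m' : ℕ+} (h : (m' : ℕ) * m = N) :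
    fricke hN (jm k m (dvd_of_mul_eq' h)) = jm k m' (dvd_of_mul_eq h) := frickeHom_jm hN h

theorem fricke_fricke (hN : (N : k) ≠ 0) (x : FF k N) : fricke hN (fricke hN x) = x :=
  AlgHom.congr_fun (frickeHom_frickeHom hN) x

theorem coe_fricke (hN : (N : k) ≠ 0) (x : FF k N) :
    (fricke hN x : LaurentSeries k) = frickeL hN x := rfl

end Fricke

end Fermat.Agent.Cusp
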